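/-
S16 (index of the Eisenstein ideal): the LOWER half, final statement (helper38, registered backup
of the LOWER package; owner helper30).

  `lower : ∀ P : HeckeAlg, heckeEvalForms p 2 P = 0 →
      (eisensteinNumerator p : ℤ) ∣ MvPolynomial.aeval (eisensteinSystem p) P`

Composition of the conditional glue `H38.lower_of_interface` with helper27's landed unified
interface (`H27.HT`, `H27.comp_HT`, `H27.HT_charInvolution`, `H27.HT_shimura`,
`H27.periodMap_heckeFormsGen`).
-/
import Mathlib
import Fermat.Agent.S16.H38.LowerGlue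
import Fermat.Agent.S16.H27.Unified

set_option autoImplicit false

open CongruenceSubgroup ModularCurve ModularCurve.Period CuspForm
open scoped MatrixGroups

namespace Fermat.Agent.S16.H38

/-- **LOWER.** Every Hecke polynomial killing the weight two cusp forms of level `Γ₀(p)` has an
Eisenstein value divisible by `n = eisensteinNumerator p`. -/
theorem lower (p : ℕ) [Fact p.Prime] :
    ∀ P : HeckeAlg, heckeEvalForms p 2 P = 0 →
      (eisensteinNumerator p : ℤ) ∣ MvPolynomial.aeval (eisensteinSystem p) P :=
  lower_of_interface p (fun A _ ℓ => H27.HT p A ℓ)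
    (fun _ _ _ _ φ ℓ ψ => H27.comp_HT φ ℓ ψ)
    (fun ℓ ψ => H27.HT_charInvolution ℂ ℓ ψ)
    (fun lam ℓ => H27.HT_shimura p lam ℓ)
    (fun ℓ f => H27.periodMap_heckeFormsGen ℓ f)

end Fermat.Agent.S16.H38
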