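/-
S16 (index of the Eisenstein ideal), LOWER half: the conditional GLUE (helper38, registered backup
of the LOWER package; owner helper30).

`lower_of_interface` derives the final LOWER statement

  `∀ P : HeckeAlg, heckeEvalForms p 2 P = 0 → (eisensteinNumerator p : ℤ) ∣ aeval (eisensteinSystem p) P`

from the binding exports of the packages L3 (Hecke operators `HT` on `Hom(Γ₀(p), A)`, functorial in
`A`, commuting with the character involution, with the Shimura class as Eisenstein eigenclass) and
L4a (Hecke equivariance of the period map), on top of the landed pieces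
* `Fermat.Agent.S21.result` (Eichler–Shimura),
* `H67.dvd_aeval_of_eigen_mod` (abstract LOWER core),
* `H8.exists_parabolic_lift` (parabolic integral lift of the Shimura class).
-/
import Mathlib
import Fermat.Agent.S21
import Fermat.Agent.S16.H67.LowerCore
import Fermat.Agent.S16.H8.ParLift

set_option autoImplicit false

open CongruenceSubgroup ModularCurve ModularCurve.Period CuspForm
open scoped MatrixGroups

namespace Fermat.Agent.S16.H38

/-- The period pair of `(f, g)` in terms of the period maps of `f` and `g`. -/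
theorem periodHomPair_apply_eq (N : ℕ) [NeZero N] (f g : CuspForm (Gamma0 N) 2) :
    periodHomPair N (f, g) =
      (periodMap N f + charInvolution N ℂ ℂ (periodMap N f)) +
        (periodMap N g - charInvolution N ℂ ℂ (periodMap N g)) := by
  obtain ⟨pml, hpml, hdef⟩ := periodHomPair_def N (Fermat.Agent.S21.H21.existsPeriodMapLinear N)
  rw [hdef, LinearMap.coprod_apply, LinearMap.comp_apply, LinearMap.comp_apply, hpml, hpml]
  rfl

/-- **Conditional GLUE for LOWER.** -/
theorem lower_of_interface (p : ℕ) [Fact p.Prime]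
    (HT : ∀ (A : Type) [AddCommGroup A], Nat.Primes →
      (Additive (Gamma0 p) →+ A) →+ (Additive (Gamma0 p) →+ A))
    (hnat : ∀ (A B : Type) [AddCommGroup A] [AddCommGroup B] (φ : A →+ B) (ℓ : Nat.Primes)
      (ψ : Additive (Gamma0 p) →+ A), φ.comp (HT A ℓ ψ) = HT B ℓ (φ.comp ψ))
    (hinv : ∀ (ℓ : Nat.Primes) (ψ : Additive (Gamma0 p) →+ ℂ),
      HT ℂ ℓ (charInvolution p ℂ ℂ ψ) = charInvolution p ℂ ℂ (HT ℂ ℓ ψ))
    (heis : ∀ (lam : (ZMod p)ˣ →* Multiplicative (ZMod (eisensteinNumerator p)))
      (ℓ : Nat.Primes),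
      HT (ZMod (eisensteinNumerator p)) ℓ (H53.shimura p lam) =
        eisensteinSystem p ℓ • H53.shimura p lam)
    (hL4 : ∀ (ℓ : Nat.Primes) (f : CuspForm (Gamma0 p) 2),
      periodMap p (((heckeFormsGen p 2 ℓ : heckeAlgebra p 2 ∅) :
        Module.End ℂ (CuspForm (Gamma0 p) 2)) f) = HT ℂ ℓ (periodMap p f))
    (P : HeckeAlg) (hP : heckeEvalForms p 2 P = 0) :
    (eisensteinNumerator p : ℤ) ∣ MvPolynomial.aeval (eisensteinSystem p) P := by
  obtain ⟨lam, ψ, -, -, hpar, hψ, γ₀, hγ₀⟩ := H8.exists_parabolic_lift p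
  refine H67.dvd_aeval_of_eigen_mod p (Fermat.Agent.S21.result p).2 (eisensteinNumerator p)
    (eisensteinSystem p) (fun ℓ => HT ℤ ℓ) (fun ℓ φ => HT ℂ ℓ φ) ?_ ?_ ψ hpar ?_
    (Additive.ofMul γ₀) hγ₀ P hP
  · -- compatibility with the cast `ℤ → ℂ`
    intro ℓ φ
    exact (hnat ℤ ℂ (Int.castAddHom ℂ) ℓ φ).symm
  · -- Hecke equivariance of the period pair
    intro ℓ f g
    rw [periodHomPair_apply_eq, periodHomPair_apply_eq, hL4, hL4, map_add, map_add, map_sub,
      hinv, hinv]
  · -- the lift of the Shimura class is an Eisenstein eigenclass modulo `n`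
    intro ℓ γ
    have hcomp : (Int.castAddHom (ZMod (eisensteinNumerator p))).comp ψ = H53.shimura p lam :=
      AddMonoidHom.ext fun γ' => hψ γ'
    have h1 := DFunLike.congr_fun
      (hnat ℤ (ZMod (eisensteinNumerator p)) (Int.castAddHom _) ℓ ψ) γ
    rw [hcomp, heis lam ℓ] at h1
    have h2 : ((HT ℤ ℓ ψ γ : ℤ) : ZMod (eisensteinNumerator p)) =
        (eisensteinSystem p ℓ : ZMod (eisensteinNumerator p)) *
          ((ψ γ : ℤ) : ZMod (eisensteinNumerator p)) := by
      have h3 : ((HT ℤ ℓ ψ γ : ℤ) : ZMod (eisensteinNumerator p)) =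
          (eisensteinSystem p ℓ • H53.shimura p lam) γ := h1
      rw [h3, AddMonoidHom.smul_apply, zsmul_eq_mul, hψ]
    rw [← ZMod.intCast_zmod_eq_zero_iff_dvd]
    push_cast
    rw [h2, sub_self]

end Fermat.Agent.S16.H38
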